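import Fermat.Agent.RED.H51_Final
import Fermat.Agent.RED.H73_GACard
import Fermat.Agent.RED.H73_GAFinal
import Fermat.Agent.RED.KD.H22_IsCusp
import Fermat.Agent.S24.H85_FF3

/-!
# S15, package B3 (helper83), part 2: the poles of `j~` on the reduced curve

`k` = residue field of a valuation ring `A ⊂ Q̄` over `ℓ ≠ p`, `F~ = k(j~, j~(q^p)) ⊂ k((q))`.
* `finrank_jRed` : `[F~ : k(j~)] = p + 1` (helper73, GA-deg);
* `poles_jRed`   : the pole orders of `j~` sum to `p + 1`;
* `cuspRed`      : the `q`-order place of `F~`, with `ord j~ = -1`, `ord j~_p = -p`.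
-/

set_option autoImplicit false
set_option synthInstance.maxHeartbeats 400000
set_option linter.unusedSectionVars false

noncomputable section

open HahnSeries IntermediateField AlgebraicCurve ModularCurve

namespace Fermat.Agent.S15.B3

open Fermat.Agent.S28.H73 (kV)
open Fermat.Agent.RED (IsFF)
open Fermat.Agent.RED.H73 (JL JL_order transcendental_of_order_neg isAlgClosed_kV
  relfinrank_fullC_red_bar dedekindPsi_prime inv_natCast_mem_of_liesOver isFF_redField_bar
  stmt_GA)

section Gen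

variable (k : Type) [Field k] (p : ℕ) [NeZero p]

/-- The reduced function field `F~_p ⊂ k((q))`. -/
abbrev FRed : Type := ↥(modularFunctionFieldFullC k p)

/-- `j~`. -/
def jRed : FRed k p := ⟨jqModC k, jqModC_mem_full k p⟩

/-- `j~_p = j~(q^p)`. -/
def jRedN : FRed k p := ⟨qExpand k p (jqModC k), jqModCd_mem_full k p dvd_rfl⟩

theorem jRed_coe : ((jRed k p : FRed k p) : LaurentSeries k) = jqModC k := rfl

theorem jRedN_coe : ((jRedN k p : FRed k p) : LaurentSeries k) = qExpand k p (jqModC k) := rfl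

theorem jqModC_order_eq : (jqModC k).order = -1 := by
  have h := JL_order k 1
  have e : JL k 1 = jqModC k := qExpand_one_apply _
  rw [e] at h
  rw [h]
  norm_num

theorem jRed_order : ((jRed k p : FRed k p) : LaurentSeries k).order = -1 :=
  jqModC_order_eq k

theorem jRedN_order : ((jRedN k p : FRed k p) : LaurentSeries k).order = -(p : ℤ) :=
  JL_order k p

theorem jRed_ne_zero : jRed k p ≠ 0 := by
  intro h
  have h1 := jRed_order k p
  rw [h] at h1
  have : ((0 : FRed k p) : LaurentSeries k).order = 0 := HahnSeries.order_zero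
  rw [this] at h1
  omega

theorem jRedN_ne_zero : jRedN k p ≠ 0 := by
  intro h
  have h1 := jRedN_order k p
  rw [h] at h1
  have : ((0 : FRed k p) : LaurentSeries k).order = 0 := HahnSeries.order_zero
  rw [this] at h1
  have := NeZero.ne p
  omega

theorem transcendental_jRed : Transcendental k (jRed k p) := by
  have h : Transcendental k (jqModC k) :=
    transcendental_of_order_neg (by rw [jqModC_order_eq]; norm_num)
  intro halg
  apply h
  have := halg.algHom (modularFunctionFieldFullC k p).val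
  exact this

/-- `[F~ : k(j~)]` as a relative rank inside `k((q))`. -/
theorem finrank_eq_relfinrank :
    Module.finrank ↥(k⟮jRed k p⟯) (FRed k p)
      = (IntermediateField.adjoin k ({jqModC k} : Set (LaurentSeries k))).relfinrank
          (modularFunctionFieldFullC k p) := by
  rw [← relfinrank_top_right,
    ← relfinrank_map_map (A := k⟮jRed k p⟯) (B := (⊤ : IntermediateField k (FRed k p)))
      (modularFunctionFieldFullC k p).val]
  congr 1
  · rw [IntermediateField.adjoin_map, Set.image_singleton]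
    rfl
  · rw [← AlgHom.fieldRange_eq_map, IntermediateField.fieldRange_val]

/-- The `q`-order place of `F~`. -/
def cuspRed : Place k (FRed k p) :=
  Fermat.Agent.RED.KD.H22.laurentPlace (modularFunctionFieldFullC k p) (jRed k p)
    (jRed_order k p)

theorem ord_cuspRed (x : FRed k p) (hx : x ≠ 0) :
    (cuspRed k p).ord x = (x : LaurentSeries k).order :=
  Fermat.Agent.RED.KD.H22.ord_laurentPlace _ _ _ x hx

theorem ord_cuspRed_jRed : (cuspRed k p).ord (jRed k p) = -1 := by
  rw [ord_cuspRed k p _ (jRed_ne_zero k p), jRed_order]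

theorem ord_cuspRed_jRedN : (cuspRed k p).ord (jRedN k p) = -(p : ℤ) := by
  rw [ord_cuspRed k p _ (jRedN_ne_zero k p), jRedN_order]

end Gen

section Bar

variable (p ℓ : ℕ) [NeZero p] (A : ValuationSubring (AlgebraicClosure ℚ))

theorem finrank_jRed (hp : p.Prime) (hℓ : ℓ.Prime) (hℓp : ℓ ≠ p) (hA : A.LiesOverPrime ℓ) :
    Module.finrank ↥((kV A)⟮jRed (kV A) p⟯) (FRed (kV A) p) = p + 1 := by
  have hℓN : ¬ ℓ ∣ p := fun h => hℓp ((Nat.prime_dvd_prime_iff_eq hℓ hp).mp h)
  have hN := inv_natCast_mem_of_liesOver A p hℓ hℓN hA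
  rw [finrank_eq_relfinrank, relfinrank_fullC_red_bar A hN, dedekindPsi_prime hp]

theorem isFF_FRed (hp : p.Prime) (hℓ : ℓ.Prime) (hℓp : ℓ ≠ p) (hA : A.LiesOverPrime ℓ) :
    IsFF (kV A) (FRed (kV A) p) := by
  have hfin : FiniteDimensional ↥((kV A)⟮jRed (kV A) p⟯) (FRed (kV A) p) :=
    Module.finite_of_finrank_pos (by rw [finrank_jRed p ℓ A hp hℓ hℓp hA]; omega)
  exact ⟨jRed (kV A) p, transcendental_jRed (kV A) p, hfin⟩

/-- The zeros theorem on the reduced field. -/
theorem zerosStmt_FRed (hp : p.Prime) (hℓ : ℓ.Prime) (hℓp : ℓ ≠ p) (hA : A.LiesOverPrime ℓ) :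
    Fermat.Agent.S24.H59.ZerosStmt (kV A) (FRed (kV A) p) := by
  have : IsAlgClosed (kV A) := isAlgClosed_kV A
  exact Fermat.Agent.RED.H51.zerosAll (kV A) (FRed (kV A) p) (isFF_FRed p ℓ A hp hℓ hℓp hA)

theorem finiteDimensional_jRed (hp : p.Prime) (hℓ : ℓ.Prime) (hℓp : ℓ ≠ p)
    (hA : A.LiesOverPrime ℓ) :
    FiniteDimensional ↥((kV A)⟮jRed (kV A) p⟯) (FRed (kV A) p) :=
  Module.finite_of_finrank_pos (by rw [finrank_jRed p ℓ A hp hℓ hℓp hA]; omega)

/-- The poles of `j~`: finitely many, and their orders sum to `-(p + 1)`. -/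
theorem poles_jRed (hp : p.Prime) (hℓ : ℓ.Prime) (hℓp : ℓ ≠ p) (hA : A.LiesOverPrime ℓ) :
    ∃ S : Finset (Place (kV A) (FRed (kV A) p)),
      (∀ Q, Q ∈ S ↔ Q.ord (jRed (kV A) p) < 0) ∧
        ∑ Q ∈ S, Q.ord (jRed (kV A) p) = -((p : ℤ) + 1) := by
  have hfin := finiteDimensional_jRed p ℓ A hp hℓ hℓp hA
  have hz := zerosStmt_FRed p ℓ A hp hℓ hℓp hA
  obtain ⟨S, hS, hsum, -⟩ := Fermat.Agent.S24.H85.poles (K := kV A) (F := FRed (kV A) p)
    (jRed (kV A) p) (transcendental_jRed (kV A) p) (fun y hy _ => hz y hy)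
  refine ⟨S, hS, ?_⟩
  rw [hsum, finrank_jRed p ℓ A hp hℓ hℓp hA]
  push_cast
  ring

end Bar

end Fermat.Agent.S15.B3
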