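import Mathlib

/-!
# S15, package B3 (helper83), part 3a: sums over the fibres of a map of places

Pure bookkeeping for `Finsupp.mapDomain r D Q = ∑_{r P = Q} D P`.
-/

set_option autoImplicit false

namespace Fermat.Agent.S15.B3

section Fiber

variable {α β : Type*} (r : α → β) (D : α →₀ ℤ) (Q : β)

open Classical in
theorem mapDomain_apply_eq_sum :
    Finsupp.mapDomain r D Q = ∑ P ∈ D.support, if r P = Q then D P else 0 := by
  rw [Finsupp.mapDomain, Finsupp.sum_apply]
  simp only [Finsupp.sum, Finsupp.single_apply]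

open Classical in
theorem mapDomain_apply_eq_sum_of_subset (E : Finset α) (hE : D.support ⊆ E) :
    Finsupp.mapDomain r D Q = ∑ P ∈ E, if r P = Q then D P else 0 := by
  rw [mapDomain_apply_eq_sum]
  refine Finset.sum_subset hE fun P _ hP => ?_
  rw [Finsupp.notMem_support_iff.mp hP]
  simp

/-- If the fibre sum over `Q` is `≤ 0` and some point of the fibre has positive multiplicity,
then some point of the fibre has negative multiplicity. -/
theorem exists_neg_of_mapDomain_le (h : Finsupp.mapDomain r D Q ≤ 0) (x : α) (hx : r x = Q)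
    (hpos : 0 < D x) : ∃ P, r P = Q ∧ D P < 0 := by
  classical
  by_contra hcon
  simp only [not_exists, not_and, not_lt] at hcon
  rw [mapDomain_apply_eq_sum] at h
  have hxs : x ∈ D.support := by
    rw [Finsupp.mem_support_iff]
    omega
  have h1 : (if r x = Q then D x else 0) ≤ ∑ P ∈ D.support, if r P = Q then D P else 0 := by
    refine Finset.single_le_sum (f := fun P => if r P = Q then D P else 0) (fun P _ => ?_) hxs
    show 0 ≤ if r P = Q then D P else 0
    split_ifs with hP
    · exact hcon P hP
    · exact le_rfl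
  rw [if_pos hx] at h1
  omega

open Classical in
/-- Splitting off a finite set `E` outside of which `D ≥ 0`. -/
theorem fiber_split (E : Finset α) (hE : ∀ P, P ∉ E → 0 ≤ D P) :
    (∑ P ∈ E, if r P = Q then D P else 0) ≤ Finsupp.mapDomain r D Q ∧
      (Finsupp.mapDomain r D Q ≤ (∑ P ∈ E, if r P = Q then D P else 0) →
        ∀ P, P ∉ E → r P = Q → D P = 0) := by
  have hsub : D.support ⊆ E ∪ (D.support \ E) := by
    intro P hP
    by_cases h : P ∈ E
    · exact Finset.mem_union_left _ h
    · exact Finset.mem_union_right _ (Finset.mem_sdiff.mpr ⟨hP, h⟩)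
  have hdisj : Disjoint E (D.support \ E) := Finset.disjoint_sdiff
  have hsum : Finsupp.mapDomain r D Q
      = (∑ P ∈ E, if r P = Q then D P else 0)
        + ∑ P ∈ D.support \ E, if r P = Q then D P else 0 := by
    rw [mapDomain_apply_eq_sum_of_subset r D Q _ hsub, Finset.sum_union hdisj]
  have hnn : ∀ P ∈ D.support \ E, 0 ≤ (if r P = Q then D P else 0) := by
    intro P hP
    split_ifs
    · exact hE P (Finset.mem_sdiff.mp hP).2
    · exact le_rfl
  have hnn' : 0 ≤ ∑ P ∈ D.support \ E, if r P = Q then D P else 0 := Finset.sum_nonneg hnn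
  refine ⟨by omega, fun hle P hPE hPQ => ?_⟩
  have h0 : ∑ P ∈ D.support \ E, (if r P = Q then D P else 0) = 0 := by omega
  by_cases hPs : P ∈ D.support
  · have := (Finset.sum_eq_zero_iff_of_nonneg hnn).mp h0 P (Finset.mem_sdiff.mpr ⟨hPs, hPE⟩)
    rwa [if_pos hPQ] at this
  · exact Finsupp.notMem_support_iff.mp hPs

open Classical in
/-- Uniqueness: if the part of the fibre sum outside `E` is `≤ 1`, at most one point of the
fibre outside `E` has positive multiplicity. -/
theorem fiber_unique (E : Finset α) (hE : ∀ P, P ∉ E → 0 ≤ D P)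
    (h : Finsupp.mapDomain r D Q ≤ (∑ P ∈ E, if r P = Q then D P else 0) + 1)
    (x x' : α) (hx : x ∉ E) (hx' : x' ∉ E) (rx : r x = Q) (rx' : r x' = Q)
    (dx : 0 < D x) (dx' : 0 < D x') : x = x' := by
  by_contra hne
  have hsub : D.support ⊆ E ∪ (D.support \ E) := by
    intro P hP
    by_cases h : P ∈ E
    · exact Finset.mem_union_left _ h
    · exact Finset.mem_union_right _ (Finset.mem_sdiff.mpr ⟨hP, h⟩)
  have hdisj : Disjoint E (D.support \ E) := Finset.disjoint_sdiff
  have hsum : Finsupp.mapDomain r D Q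
      = (∑ P ∈ E, if r P = Q then D P else 0)
        + ∑ P ∈ D.support \ E, if r P = Q then D P else 0 := by
    rw [mapDomain_apply_eq_sum_of_subset r D Q _ hsub, Finset.sum_union hdisj]
  have hnn : ∀ P ∈ D.support \ E, 0 ≤ (if r P = Q then D P else 0) := by
    intro P hP
    split_ifs
    · exact hE P (Finset.mem_sdiff.mp hP).2
    · exact le_rfl
  have hxs : x ∈ D.support \ E :=
    Finset.mem_sdiff.mpr ⟨Finsupp.mem_support_iff.mpr (by omega), hx⟩
  have hxs' : x' ∈ D.support \ E :=
    Finset.mem_sdiff.mpr ⟨Finsupp.mem_support_iff.mpr (by omega), hx'⟩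
  have hpair : ({x, x'} : Finset α) ⊆ D.support \ E := by
    intro P hP
    simp only [Finset.mem_insert, Finset.mem_singleton] at hP
    rcases hP with rfl | rfl
    · exact hxs
    · exact hxs'
  have hle : ∑ P ∈ ({x, x'} : Finset α), (if r P = Q then D P else 0)
      ≤ ∑ P ∈ D.support \ E, if r P = Q then D P else 0 :=
    Finset.sum_le_sum_of_subset_of_nonneg hpair fun P hP _ => hnn P hP
  rw [Finset.sum_pair hne, if_pos rx, if_pos rx'] at hle
  omega

end Fiber

end Fermat.Agent.S15.B3
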