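import Fermat.Agent.S15.H30_CuspTors
import Fermat.Agent.RED.H73_GASwap
import Fermat.Agent.RED.H73_GAFinal

/-!
# S15, package B3 (helper83), part 1: `j_p = j(q^p)` is integral over `Q̄[j]`

The conjugate data of helper73/helper30 (`CADataL`) contain the symmetric-function property
`∏_q (c - U q - s X_d q) ∈ Q̄[J]`; with `sym_three` (`b = 0`) the characteristic polynomial
`∏_q (T - X_d q)` has coefficients in `Q̄[J]`, so `X_d q₀ = j(q^d)` is integral over `Q̄[j]`.
Consequence: a place of `X₀(p)` which is not a pole of `j` is not a pole of `j_p`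
(`ord_jBarN_nonneg`), and the poles of `j_p` are the two cusps (`poleN_eq_of_isCuspPair`).
-/

set_option autoImplicit false
set_option synthInstance.maxHeartbeats 400000

noncomputable section

open HahnSeries IntermediateField AlgebraicCurve ModularCurve Polynomial

namespace Fermat.Agent.S15.B3

open Fermat.Agent.S24 (Kbar FN jF jdF)
open Fermat.Agent.RED.H73 (CADataL JL sym_three caDataBar)
open Fermat.Agent.S28.H90 (chi chi_eval chi_monic chi_eval_self coeff_mem_of_eval_mem)
open Fermat.Agent.S15.H30 (psi psi_apply psi_injective psi_jF mem_of_isIntegral_map)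

variable {p : ℕ} [NeZero p]

/-- The coefficients of `∏_q (T - X_d q)` lie in `Q̄[J]`. -/
theorem chiX_coeff_mem (D : CADataL Kbar p) (d : ℕ) (hd : d ∣ p) (k : ℕ) :
    (chi (D.X d)).coeff k ∈ Algebra.adjoin Kbar ({JL Kbar p} : Set (LaurentSeries Kbar)) := by
  have := coeff_mem_of_eval_mem (C := Kbar)
    (Subalgebra.toSubmodule (Algebra.adjoin Kbar ({JL Kbar p} : Set (LaurentSeries Kbar))))
    (chi (D.X d))
    (fun c => by
      rw [chi_eval]
      have h := sym_three (Algebra.adjoin Kbar ({JL Kbar p} : Set (LaurentSeries Kbar)))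
        D.U (D.X d)
        (fun c s => by
          have h0 := D.sym d hd c s
          rw [LaurentSeries.algebraMap_apply, LaurentSeries.algebraMap_apply]
          exact h0) c 0 1
      have e : (∏ q, (algebraMap Kbar (LaurentSeries Kbar) c - D.X d q))
          = ∏ q, (algebraMap Kbar (LaurentSeries Kbar) c
              - algebraMap Kbar (LaurentSeries Kbar) 0 * D.U q
              - algebraMap Kbar (LaurentSeries Kbar) 1 * D.X d q) :=
        Finset.prod_congr rfl fun q _ => by rw [map_zero, map_one, zero_mul, one_mul, sub_zero]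
      rw [e]
      exact h) k
  exact this

/-- `X_d q` is integral over `Q̄[J]`. -/
theorem isIntegral_X (D : CADataL Kbar p) (d : ℕ) (hd : d ∣ p) (q : D.Q) :
    IsIntegral ↥(Algebra.adjoin Kbar ({JL Kbar p} : Set (LaurentSeries Kbar))) (D.X d q) := by
  have hl : chi (D.X d) ∈ Polynomial.lifts
      (algebraMap ↥(Algebra.adjoin Kbar ({JL Kbar p} : Set (LaurentSeries Kbar)))
        (LaurentSeries Kbar)) := by
    rw [Polynomial.lifts_iff_coeff_lifts]
    intro n
    exact ⟨⟨_, chiX_coeff_mem D d hd n⟩, rfl⟩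
  obtain ⟨P, hP, -, hm⟩ := Polynomial.lifts_and_natDegree_eq_and_monic hl (chi_monic (D.X d))
  refine ⟨P, hm, ?_⟩
  rw [← aeval_def, aeval_def, ← eval_map, hP]
  exact chi_eval_self (D.X d) q

/-- `ψ (j(q^d)) = X_d q₀`. -/
theorem psi_jdF (D : CADataL Kbar p) (d : ℕ) [NeZero d] (hd : d ∣ p) :
    psi p (jdF p d hd) = D.X d D.q₀ := by
  rw [psi_apply, D.X_q₀ d hd]
  show qExpand Kbar p (coeffEmb Kbar (qExpand ℚ d jq)) = _
  rw [Fermat.Agent.RED.H73.coeffEmb_qExpand_jq (L := Kbar) d]

/-- A place of `X₀(p)` at which `j` is regular is not a pole of `j(q^d)`, `d ∣ p`. -/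
theorem jdF_mem_of_jF_mem (d : ℕ) [NeZero d] (hd : d ∣ p) (P : Place Kbar (FN p))
    (hj : jF p ∈ P.toValuationSubring) : jdF p d hd ∈ P.toValuationSubring := by
  refine mem_of_isIntegral_map (psi p) (psi_injective p) P (jF p) hj (jdF p d hd) ?_
  rw [psi_jF, psi_jdF (caDataBar p) d hd]
  exact isIntegral_X (caDataBar p) d hd _

/-- A place of `X₀(p)` which is not a pole of `j` is not a pole of `j_p`. -/
theorem ord_jBarN_nonneg (P : PlaceBar p) (h : 0 ≤ P.ord (jBar p)) : 0 ≤ P.ord (jBarN p) :=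
  Fermat.Agent.S24.H85.ord_nonneg_of_mem P
    (jdF_mem_of_jF_mem p dvd_rfl P (Fermat.Agent.S24.H85.mem_of_ord_nonneg P h))

/-- For `p` prime, every pole of `j_p` on `X₀(p)` is one of the two cusps. -/
theorem poleN_eq_of_isCuspPair (hp : p.Prime) {Pinf P0 : PlaceBar p}
    (h : IsCuspPair p Pinf P0) (P : PlaceBar p) (hP : P.ord (jBarN p) < 0) :
    P = Pinf ∨ P = P0 := by
  refine Fermat.Agent.S15.H30.pole_eq_of_isCuspPair hp h P ?_
  by_contra hcon
  rw [not_lt] at hcon
  have := ord_jBarN_nonneg P hcon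
  omega

end Fermat.Agent.S15.B3
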