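import Fermat.Agent.S24.H85_FF3

/-!
# S15, package B3 (helper83), part 3c: the valuation of a place

`pv x = x.toValuationSubring.valuation`; dictionary with `Place.ord`, and the value lemma
`pv_zero_lemma`: if `u ≡ α`, `w ≡ β` at `x` and `c α^n = β` then `c u^n / w ≡ 1` at `x`.
-/

set_option autoImplicit false

noncomputable section

open AlgebraicCurve

namespace Fermat.Agent.S15.B3

section Val

variable {K F : Type*} [Field K] [Field F] [Algebra K F] (x : Place K F)

/-- The valuation of a place. -/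
abbrev pv : Valuation F x.toValuationSubring.ValueGroup := x.toValuationSubring.valuation

theorem pv_le_one_iff {f : F} : pv x f ≤ 1 ↔ 0 ≤ x.ord f := by
  rw [ValuationSubring.valuation_le_one_iff]
  exact ⟨fun h => Fermat.Agent.S24.H85.ord_nonneg_of_mem x h,
    fun h => Fermat.Agent.S24.H85.mem_of_ord_nonneg x h⟩

theorem one_lt_pv_iff {f : F} : 1 < pv x f ↔ x.ord f < 0 := by
  rw [← not_le, pv_le_one_iff, not_le]

theorem pv_lt_one_iff {f : F} (hf : f ≠ 0) : pv x f < 1 ↔ 0 < x.ord f := by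
  have h1 : pv x f ≠ 0 := (Valuation.ne_zero_iff _).mpr hf
  have h2 : 1 < pv x f⁻¹ ↔ x.ord f⁻¹ < 0 := one_lt_pv_iff x
  rw [map_inv₀, Place.ord_inv, one_lt_inv₀ (zero_lt_iff.mpr h1)] at h2
  rw [h2]
  omega

theorem pv_lt_one_of_ord_pos {f : F} (h : 0 < x.ord f) : pv x f < 1 := by
  have hf : f ≠ 0 := by
    rintro rfl
    simp at h
  exact (pv_lt_one_iff x hf).mpr h

theorem pv_algebraMap {c : K} (hc : c ≠ 0) : pv x (algebraMap K F c) = 1 := by
  have h1 : pv x (algebraMap K F c) ≤ 1 :=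
    (ValuationSubring.valuation_le_one_iff _ _).mpr (x.algebraMap_mem' c)
  have h2 : pv x (algebraMap K F c⁻¹) ≤ 1 :=
    (ValuationSubring.valuation_le_one_iff _ _).mpr (x.algebraMap_mem' c⁻¹)
  have h0 : pv x (algebraMap K F c) ≠ 0 := by
    rw [Valuation.ne_zero_iff]
    exact fun h => hc ((map_eq_zero _).mp h)
  rw [map_inv₀, map_inv₀, inv_le_one₀ (zero_lt_iff.mpr h0)] at h2
  exact le_antisymm h1 h2

theorem pv_algebraMap_le (c : K) : pv x (algebraMap K F c) ≤ 1 :=
  (ValuationSubring.valuation_le_one_iff _ _).mpr (x.algebraMap_mem' c)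

/-- If `u ≡ α ≠ 0` at `x` then `u` is a unit at `x`. -/
theorem pv_eq_one_of_sub {u : F} {α : K} (hα : α ≠ 0)
    (hu : pv x (u - algebraMap K F α) < 1) : pv x u = 1 := by
  have h : u = (u - algebraMap K F α) + algebraMap K F α := by ring
  rw [h, Valuation.map_add_eq_of_lt_right _ (by rw [pv_algebraMap x hα]; exact hu),
    pv_algebraMap x hα]

/-- If `u ≡ α` at `x` then `u ^ n ≡ α ^ n` at `x`. -/
theorem pv_pow_sub_lt {u : F} {α : K} (hu : pv x (u - algebraMap K F α) < 1) (n : ℕ) :
    pv x (u ^ n - algebraMap K F α ^ n) < 1 := by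
  have hα : pv x (algebraMap K F α) ≤ 1 := pv_algebraMap_le x α
  have hu1 : pv x u ≤ 1 := by
    have h : u = (u - algebraMap K F α) + algebraMap K F α := by ring
    rw [h]
    exact le_trans (Valuation.map_add _ _ _) (max_le hu.le hα)
  have hsum : pv x (∑ i ∈ Finset.range n, u ^ i * algebraMap K F α ^ (n - 1 - i)) ≤ 1 := by
    refine Valuation.map_sum_le _ fun i _ => ?_
    rw [map_mul, map_pow, map_pow]
    exact mul_le_one₀ (pow_le_one₀ zero_le hu1) zero_le (pow_le_one₀ zero_le hα)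
  rw [← geom_sum₂_mul, map_mul]
  calc pv x (∑ i ∈ Finset.range n, u ^ i * algebraMap K F α ^ (n - 1 - i))
        * pv x (u - algebraMap K F α)
      ≤ 1 * pv x (u - algebraMap K F α) := mul_le_mul_left hsum _
    _ = pv x (u - algebraMap K F α) := one_mul _
    _ < 1 := hu

/-- **Value lemma**: if `u ≡ α`, `w ≡ β ≠ 0` at `x` and `c α^n = β`, then `c u^n / w ≡ 1`. -/
theorem pv_zero_lemma {u w : F} {α β c : K} (hβ : β ≠ 0) (n : ℕ)
    (hu : pv x (u - algebraMap K F α) < 1) (hw : pv x (w - algebraMap K F β) < 1)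
    (hc : c * α ^ n = β) :
    pv x (algebraMap K F c * (u ^ n * w⁻¹) - 1) < 1 := by
  have hw1 : pv x w = 1 := pv_eq_one_of_sub x hβ hw
  have hw0 : w ≠ 0 := by
    intro h
    rw [h, map_zero] at hw1
    exact zero_ne_one hw1
  have e : algebraMap K F c * (u ^ n * w⁻¹) - 1
      = (algebraMap K F c * (u ^ n - algebraMap K F α ^ n) - (w - algebraMap K F β)) * w⁻¹ := by
    have hcβ : algebraMap K F β = algebraMap K F c * algebraMap K F α ^ n := by
      rw [← hc, map_mul, map_pow]
    rw [hcβ]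
    field_simp
    ring
  rw [e, map_mul, map_inv₀, hw1, inv_one, mul_one]
  refine lt_of_le_of_lt (Valuation.map_sub _ _ _) (max_lt ?_ hw)
  rw [map_mul]
  calc pv x (algebraMap K F c) * pv x (u ^ n - algebraMap K F α ^ n)
      ≤ 1 * pv x (u ^ n - algebraMap K F α ^ n) := mul_le_mul_left (pv_algebraMap_le x c) _
    _ = pv x (u ^ n - algebraMap K F α ^ n) := one_mul _
    _ < 1 := pv_pow_sub_lt x hu n

/-- `c (u - α)` is small at `x` if `u ≡ α`. -/
theorem pv_scale_lemma {u : F} {α c : K} (hu : pv x (u - algebraMap K F α) < 1)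
    (hc : c * α = 1) : pv x (algebraMap K F c * u - 1) < 1 := by
  have e : algebraMap K F c * u - 1 = algebraMap K F c * (u - algebraMap K F α) := by
    rw [mul_sub, ← map_mul, hc, map_one]
  rw [e, map_mul]
  calc pv x (algebraMap K F c) * pv x (u - algebraMap K F α)
      ≤ 1 * pv x (u - algebraMap K F α) := mul_le_mul_left (pv_algebraMap_le x c) _
    _ = pv x (u - algebraMap K F α) := one_mul _
    _ < 1 := hu

theorem ord_pow_nat (f : F) (n : ℕ) : x.ord (f ^ n) = n * x.ord f := by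
  have := x.ord_zpow f (n : ℤ)
  rwa [zpow_natCast] at this

end Val

end Fermat.Agent.S15.B3
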