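import Fermat.Agent.S15.Defs
import Fermat.Agent.S15.B3.H83_Deg
import Fermat.Agent.S15.B3.H83_Fiber
import Fermat.Agent.S15.B3.H83_Val
import Fermat.Agent.RED.H95_IsFF
import Fermat.Prelude.Def_ModularCurve_ReductionModL

/-!
# S15, package B3 (helper83), part 3b: integral series and the conservation law

`Good A p y` : the series `y ∈ A((q))` has its generic fibre in `F_p` and its special fibre in
`F~_p`.  For a place reduction `r` (`IsPlaceReductionAlong`):
* `Good.identity`  : `r_* (div y) = div (y mod 𝔪)` if `y mod 𝔪 ≠ 0`;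
* `exists_pole`    : if `c ∈ 𝔪_A` and `x` is a zero of `c X - 1` then some pole `P` of `X` has
  `r P = r x`  (the reduction of `c X - 1` is the constant `-1`).
-/

set_option autoImplicit false
set_option synthInstance.maxHeartbeats 400000
set_option linter.unusedSectionVars false

noncomputable section

open HahnSeries IntermediateField AlgebraicCurve ModularCurve

namespace Fermat.Agent.S15.B3

open Fermat.Agent.S24 (Kbar FN)
open Fermat.Agent.S28.H73 (kV)

variable (A : ValuationSubring (AlgebraicClosure ℚ)) (p : ℕ) [NeZero p]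

/-! ### Units of `R((q))` -/

theorem isUnit_jqModC (R : Type*) [CommRing R] : IsUnit (jqModC R) := by
  rw [jqModC]
  refine IsUnit.mul ?_ ?_
  · refine ⟨⟨HahnSeries.single (-1 : ℤ) (1 : R), HahnSeries.single (1 : ℤ) (1 : R), ?_, ?_⟩, rfl⟩
    · rw [HahnSeries.single_mul_single]
      norm_num
    · rw [HahnSeries.single_mul_single]
      norm_num
  · apply IsUnit.map (HahnSeries.ofPowerSeries ℤ R)
    rw [PowerSeries.isUnit_iff_constantCoeff, ← PowerSeries.coeff_zero_eq_constantCoeff,
      PowerSeries.coeff_map, PowerSeries.coeff_zero_eq_constantCoeff, constantCoeff_jNum, map_one]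
    exact isUnit_one

/-! ### Good series -/

/-- The generic fibre of `y` lies in `F_p` and the special fibre in `F~_p`. -/
structure Good (y : LaurentSeries A) : Prop where
  memK : coeffMap A.subtype y ∈ laurentBaseChange Kbar (modularFunctionFieldFull p)
  memk : coeffMap (IsLocalRing.residue A) y ∈ modularFunctionFieldFullC (kV A) p

variable {A p}

/-- The generic fibre. -/
def Good.genK {y : LaurentSeries A} (h : Good A p y) : FN p := ⟨coeffMap A.subtype y, h.memK⟩

/-- The special fibre. -/
def Good.redk {y : LaurentSeries A} (h : Good A p y) : FRed (kV A) p :=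
  ⟨coeffMap (IsLocalRing.residue A) y, h.memk⟩

theorem Good.genK_coe {y : LaurentSeries A} (h : Good A p y) :
    (h.genK : LaurentSeries Kbar) = coeffMap A.subtype y := rfl

theorem Good.redk_coe {y : LaurentSeries A} (h : Good A p y) :
    (h.redk : LaurentSeries (kV A)) = coeffMap (IsLocalRing.residue A) y := rfl

theorem good_one : Good A p 1 :=
  ⟨by rw [map_one]; exact one_mem _, by rw [map_one]; exact one_mem _⟩

theorem Good.add {y z : LaurentSeries A} (hy : Good A p y) (hz : Good A p z) :
    Good A p (y + z) :=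
  ⟨by rw [map_add]; exact add_mem hy.memK hz.memK, by rw [map_add]; exact add_mem hy.memk hz.memk⟩

theorem Good.sub {y z : LaurentSeries A} (hy : Good A p y) (hz : Good A p z) :
    Good A p (y - z) :=
  ⟨by rw [map_sub]; exact sub_mem hy.memK hz.memK, by rw [map_sub]; exact sub_mem hy.memk hz.memk⟩

theorem Good.mul {y z : LaurentSeries A} (hy : Good A p y) (hz : Good A p z) :
    Good A p (y * z) :=
  ⟨by rw [map_mul]; exact mul_mem hy.memK hz.memK, by rw [map_mul]; exact mul_mem hy.memk hz.memk⟩

theorem Good.pow {y : LaurentSeries A} (hy : Good A p y) (n : ℕ) : Good A p (y ^ n) :=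
  ⟨by rw [map_pow]; exact pow_mem hy.memK n, by rw [map_pow]; exact pow_mem hy.memk n⟩

theorem coeffMap_C {R S : Type*} [CommRing R] [CommRing S] (f : R →+* S) (c : R) :
    coeffMap f (HahnSeries.C c : LaurentSeries R) = HahnSeries.C (f c) := by
  rw [HahnSeries.C_apply, coeffMap_single, HahnSeries.C_apply]

theorem C_eq_algebraMap {K : Type*} [Field K] (c : K) :
    (HahnSeries.C c : LaurentSeries K) = algebraMap K (LaurentSeries K) c := by
  rw [algebraMap_laurentSeries_eq_single, HahnSeries.C_apply]

theorem good_C (c : A) : Good A p (HahnSeries.C c) :=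
  ⟨by rw [coeffMap_C, C_eq_algebraMap]; exact IntermediateField.algebraMap_mem _ _,
    by rw [coeffMap_C, C_eq_algebraMap]; exact IntermediateField.algebraMap_mem _ _⟩

theorem good_J : Good A p (jqModC A) :=
  ⟨by
    rw [coeffMap_jqModC, Fermat.Agent.RED.H73.laurentBaseChange_full_eq]
    exact jqModC_mem_full Kbar p,
   by rw [coeffMap_jqModC]; exact jqModC_mem_full (kV A) p⟩

theorem good_Jp : Good A p (qExpand A p (jqModC A)) :=
  ⟨by
    rw [coeffMap_qExpand, coeffMap_jqModC, Fermat.Agent.RED.H73.laurentBaseChange_full_eq]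
    exact jqModCd_mem_full Kbar p dvd_rfl,
   by rw [coeffMap_qExpand, coeffMap_jqModC]; exact jqModCd_mem_full (kV A) p dvd_rfl⟩

/-- The inverse of a good unit is good. -/
theorem Good.of_mul_eq_one {y z : LaurentSeries A} (hy : Good A p y) (h : y * z = 1) :
    Good A p z := by
  have h1 : coeffMap A.subtype y * coeffMap A.subtype z = 1 := by rw [← map_mul, h, map_one]
  have h2 : coeffMap (IsLocalRing.residue A) y * coeffMap (IsLocalRing.residue A) z = 1 := by
    rw [← map_mul, h, map_one]
  refine ⟨?_, ?_⟩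
  · rw [eq_inv_of_mul_eq_one_right h1]
    exact inv_mem hy.memK
  · rw [eq_inv_of_mul_eq_one_right h2]
    exact inv_mem hy.memk

/-! ### The two coordinates -/

theorem genK_J : (good_J (A := A) (p := p)).genK = jBar p := by
  apply Subtype.ext
  rw [Good.genK_coe, coeffMap_jqModC]
  show _ = coeffEmb Kbar jq
  have h := Fermat.Agent.RED.H73.coeffEmb_qExpand_jq (L := Kbar) 1
  rw [qExpand_one_apply, qExpand_one_apply] at h
  rw [h]

theorem genK_Jp : (good_Jp (A := A) (p := p)).genK = jBarN p := by
  apply Subtype.ext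
  rw [Good.genK_coe, coeffMap_qExpand, coeffMap_jqModC]
  show _ = coeffEmb Kbar (qExpand ℚ p jq)
  rw [Fermat.Agent.RED.H73.coeffEmb_qExpand_jq (L := Kbar) p]

theorem redk_J : (good_J (A := A) (p := p)).redk = jRed (kV A) p := by
  apply Subtype.ext
  rw [Good.redk_coe, coeffMap_jqModC]
  rfl

theorem redk_Jp : (good_Jp (A := A) (p := p)).redk = jRedN (kV A) p := by
  apply Subtype.ext
  rw [Good.redk_coe, coeffMap_qExpand, coeffMap_jqModC]
  rfl

theorem Good.genK_mul {y z : LaurentSeries A} (hy : Good A p y) (hz : Good A p z) :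
    (hy.mul hz).genK = hy.genK * hz.genK :=
  Subtype.ext (map_mul _ _ _)

theorem Good.genK_pow {y : LaurentSeries A} (hy : Good A p y) (n : ℕ) :
    (hy.pow n).genK = hy.genK ^ n :=
  Subtype.ext (map_pow _ _ _)

theorem Good.genK_inv {y z : LaurentSeries A} (hy : Good A p y) (h : y * z = 1) :
    (hy.of_mul_eq_one h).genK = (hy.genK)⁻¹ := by
  have h1 : hy.genK * (hy.of_mul_eq_one h).genK = 1 := by
    rw [← Good.genK_mul]
    apply Subtype.ext
    rw [Good.genK_coe, h, map_one]
    rfl
  exact eq_inv_of_mul_eq_one_right h1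

/-! ### The conservation law -/

theorem coeffMap_subtype_injective :
    Function.Injective (coeffMap (A.subtype : A →+* AlgebraicClosure ℚ)) := by
  intro y z h
  ext k
  have := congrArg (fun s => s.coeff k) h
  simp only [coeffMap_coeff] at this
  exact this

instance hasPrincipalDivisors_FN : HasPrincipalDivisors Kbar (FN p) :=
  Fermat.Agent.RED.H51.stmt_FFB_principal Kbar (FN p) (Fermat.Agent.RED.H95.isFF_FN p)

variable {r : Place Kbar (FN p) → Place (kV A) (FRed (kV A) p)}

theorem Good.genK_ne_zero {y : LaurentSeries A} (hy : Good A p y)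
    (hne : coeffMap (IsLocalRing.residue A) y ≠ 0) : hy.genK ≠ 0 := by
  have hy0 : y ≠ 0 := by
    rintro rfl
    exact hne (map_zero _)
  intro h
  apply hy0
  apply coeffMap_subtype_injective
  rw [map_zero]
  exact congrArg Subtype.val h

/-- The conservation law for a good series with non-zero reduction. -/
theorem Good.identity (hr : IsPlaceReductionAlong A (IsLocalRing.residue A) p r)
    {y : LaurentSeries A} (hy : Good A p y) (hne : coeffMap (IsLocalRing.residue A) y ≠ 0) :
    ∃ D : Divisor Kbar (FN p), (∀ P, D P = P.ord hy.genK) ∧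
      ∀ Q, Finsupp.mapDomain r D Q = Q.ord hy.redk := by
  obtain ⟨D, hD, -⟩ := HasPrincipalDivisors.exists_divisor (K := Kbar) hy.genK
    (hy.genK_ne_zero hne)
  exact ⟨D, hD, fun Q => hr.2 y hy.memK hy.memk hne D hD Q⟩

/-- The series `c X - 1`, `c ∈ 𝔪_A`: its generic fibre and its reduction `-1`. -/
theorem good_scale {X : LaurentSeries A} (hX : Good A p X) (c : A)
    (hc : IsLocalRing.residue A c = 0) :
    ∃ hy : Good A p (HahnSeries.C c * X - 1),
      hy.genK = algebraMap Kbar (FN p) (c : AlgebraicClosure ℚ) * hX.genK - 1 ∧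
      coeffMap (IsLocalRing.residue A) (HahnSeries.C c * X - 1) ≠ 0 ∧
      ∀ Q : Place (kV A) (FRed (kV A) p), Q.ord hy.redk = 0 := by
  have hy : Good A p (HahnSeries.C c * X - 1) := ((good_C c).mul hX).sub good_one
  have hgen : hy.genK = algebraMap Kbar (FN p) (c : AlgebraicClosure ℚ) * hX.genK - 1 := by
    apply Subtype.ext
    rw [Good.genK_coe, map_sub, map_mul, map_one, coeffMap_C, C_eq_algebraMap]
    rfl
  have hred : coeffMap (IsLocalRing.residue A) (HahnSeries.C c * X - 1) = -1 := by
    rw [map_sub, map_mul, map_one, coeffMap_C, hc, map_zero, zero_mul, zero_sub]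
  have hne : coeffMap (IsLocalRing.residue A) (HahnSeries.C c * X - 1) ≠ 0 := by
    rw [hred]
    exact neg_ne_zero.mpr one_ne_zero
  have hredk : hy.redk = -1 := Subtype.ext hred
  refine ⟨hy, hgen, hne, fun Q => ?_⟩
  rw [hredk]
  have h1 : (-1 : FRed (kV A) p) = algebraMap (kV A) (FRed (kV A) p) (-1) := by
    rw [map_neg, map_one]
  rw [h1]
  exact Fermat.Agent.S24.H59.ord_algebraMap_eq_zero' _ _

/-- **The principle**: for `c ∈ 𝔪_A`, every zero `x` of `c X - 1` has a pole `P` of `X` with
`r P = r x`. -/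
theorem exists_pole (hr : IsPlaceReductionAlong A (IsLocalRing.residue A) p r)
    {X : LaurentSeries A} (hX : Good A p X) (c : A) (hc : IsLocalRing.residue A c = 0)
    (x : Place Kbar (FN p))
    (hx : pv x (algebraMap Kbar (FN p) (c : AlgebraicClosure ℚ) * hX.genK - 1) < 1) :
    ∃ P : Place Kbar (FN p), r P = r x ∧ P.ord hX.genK < 0 := by
  obtain ⟨hy, hgen, hne, hord⟩ := good_scale hX c hc
  obtain ⟨D, hD, hid⟩ := hy.identity hr hne
  have h0 : Finsupp.mapDomain r D (r x) ≤ 0 := by rw [hid, hord]
  have hxpos : 0 < D x := by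
    rw [hD]
    refine (pv_lt_one_iff x (hy.genK_ne_zero hne)).mp ?_
    rw [hgen]
    exact hx
  obtain ⟨P, hP, hneg⟩ := exists_neg_of_mapDomain_le r D (r x) h0 x rfl hxpos
  refine ⟨P, hP, ?_⟩
  rw [hD, hgen] at hneg
  by_contra hcon
  rw [not_lt] at hcon
  have h1 : hX.genK ∈ P.toValuationSubring := Fermat.Agent.S24.H85.mem_of_ord_nonneg P hcon
  have h2 : algebraMap Kbar (FN p) (c : AlgebraicClosure ℚ) * hX.genK - 1
      ∈ P.toValuationSubring :=
    sub_mem (mul_mem (P.algebraMap_mem' _) h1) (one_mem _)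
  have := Fermat.Agent.S24.H85.ord_nonneg_of_mem P h2
  omega

/-- A power of a good series divided by a good unit. -/
theorem exists_good_ratio {X Y : LaurentSeries A} (hX : Good A p X) (hY : Good A p Y)
    (hu : IsUnit Y) (n : ℕ) :
    ∃ (Z : LaurentSeries A) (hZ : Good A p Z), hZ.genK = hX.genK ^ n * (hY.genK)⁻¹ := by
  obtain ⟨u, rfl⟩ := hu
  have hinv : (u : LaurentSeries A) * ((u⁻¹ : (LaurentSeries A)ˣ) : LaurentSeries A) = 1 :=
    u.mul_inv
  refine ⟨X ^ n * ((u⁻¹ : (LaurentSeries A)ˣ) : LaurentSeries A),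
    (hX.pow n).mul (hY.of_mul_eq_one hinv), ?_⟩
  rw [Good.genK_mul (hX.pow n) (hY.of_mul_eq_one hinv), Good.genK_pow hX n,
    Good.genK_inv hY hinv]

end Fermat.Agent.S15.B3
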