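import Fermat.Agent.S15.BridgeDefs
import Fermat.Agent.S15.B3.H83_IntJ
import Fermat.Agent.S15.B3.H83_Series
import Fermat.Agent.S15.H30_CuspGal

/-!
# S15, package B3 (helper83): reduction of a place from the absolute values of its `j`-values

`stmt_B3 : Stmt_B3`.  For a place reduction `r` at a prime `ℓ ≠ p` (any map with the conservation
law of `IsPlaceReductionAlong`), cusps `P∞`, `P0` of `X₀(p)`, and a place `x` with `j(x) = b`,
`j_p(x) = a`, `|a| > 1`:
* `|b| < |a|^p  ⟹  r x = r P∞`,     * `|a| ≤ |b|  ⟹  r x = r P0`        (`b3_strong`).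

Proof.  (1) `j~` has degree `p + 1` on the reduced curve and `r_* (div j) = div j~`, so the poles
of `j~` are `r P∞ ≠ r P0`, of orders `1`, `p`, no zero of `j` reduces to them, and `r P∞` is the
`q`-order place (`deg_facts`); hence no zero of `j_p` reduces to `r P∞` (`no_zero_jN`).
(2) For `c ∈ 𝔪_A` the series `c X - 1` reduces to `-1`, so every zero of `c X - 1` has a pole of
`X` with the same reduction (`exists_pole`).  Apply to `X = j_p` resp. `j` (so `r x ∈ {r P∞, r P0}`)
and to `X = j_p^p / j` resp. `j^p / j_p`.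
-/

set_option autoImplicit false
set_option synthInstance.maxHeartbeats 400000
set_option maxHeartbeats 1000000
set_option linter.unusedSectionVars false

noncomputable section

open HahnSeries IntermediateField AlgebraicCurve ModularCurve

namespace Fermat.Agent.S15.B3

open Fermat.Agent.S24 (Kbar FN)
open Fermat.Agent.S28.H73 (kV)

variable {A : ValuationSubring (AlgebraicClosure ℚ)} {p ℓ : ℕ} [NeZero p]
variable {r : Place Kbar (FN p) → Place (kV A) (FRed (kV A) p)}

/-- An element of `Q̄` of absolute value `< 1`, as an element of `𝔪_A`. -/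
theorem exists_small (c : AlgebraicClosure ℚ) (hc : A.valuation c < 1) :
    ∃ cA : A, (cA : AlgebraicClosure ℚ) = c ∧ IsLocalRing.residue A cA = 0 := by
  have hmem : c ∈ A := (A.valuation_le_one_iff c).mp hc.le
  refine ⟨⟨c, hmem⟩, rfl, ?_⟩
  rw [IsLocalRing.residue_eq_zero_iff, ValuationSubring.valuation_lt_one_iff]
  exact hc

/-- `exists_pole` for a constant of `Q̄` of absolute value `< 1`. -/
theorem exists_pole_of_val (hr : IsPlaceReductionAlong A (IsLocalRing.residue A) p r)
    {X : LaurentSeries A} (hX : Good A p X) (f : FN p) (hf : hX.genK = f)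
    (c : AlgebraicClosure ℚ) (hc : A.valuation c < 1) (x : Place Kbar (FN p))
    (hx : pv x (algebraMap Kbar (FN p) c * f - 1) < 1) :
    ∃ P : Place Kbar (FN p), r P = r x ∧ P.ord f < 0 := by
  obtain ⟨cA, rfl, hcA⟩ := exists_small c hc
  subst hf
  exact exists_pole hr hX cA hcA x hx

section Cusp

variable (hp : p.Prime) {Pinf P0 : PlaceBar p} (hc : IsCuspPair p Pinf P0)

include hc in
theorem jBar_ne_zero_of : jBar p ≠ 0 := by
  intro h
  have := hc.ord_j_inf
  rw [h, Place.ord_zero] at this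
  omega

include hc in
theorem jBarN_ne_zero_of : jBarN p ≠ 0 := by
  intro h
  have := hc.ord_jN_zero
  rw [h, Place.ord_zero] at this
  omega

include hp hc in
theorem ord_j_nonneg_of_ne (P : PlaceBar p) (h1 : P ≠ Pinf) (h2 : P ≠ P0) :
    0 ≤ P.ord (jBar p) := by
  by_contra hcon
  rw [not_le] at hcon
  rcases Fermat.Agent.S15.H30.pole_eq_of_isCuspPair hp hc P hcon with h | h
  · exact h1 h
  · exact h2 h

include hp hc in
theorem ord_jN_nonneg_of_ne (P : PlaceBar p) (h1 : P ≠ Pinf) (h2 : P ≠ P0) :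
    0 ≤ P.ord (jBarN p) :=
  ord_jBarN_nonneg P (ord_j_nonneg_of_ne hp hc P h1 h2)

variable (hℓ : ℓ.Prime) (hℓp : ℓ ≠ p) (hA : A.LiesOverPrime ℓ)
  (hr : IsPlaceReductionAlong A (IsLocalRing.residue A) p r)

include hp hc hℓ hℓp hA hr in
/-- The poles of `j~` are `r P∞ ≠ r P0`; `r P∞` is the `q`-order place; no zero of `j` reduces
to `r P∞` or `r P0`. -/
theorem deg_facts :
    r Pinf ≠ r P0 ∧ r Pinf = cuspRed (kV A) p ∧
      ∀ P : PlaceBar p, (r P = r Pinf ∨ r P = r P0) → P.ord (jBar p) ≤ 0 := by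
  classical
  have hne : Pinf ≠ P0 := Fermat.Agent.S15.H30.isCuspPair_ne hp.two_le hc
  have hp2 : (2 : ℤ) ≤ (p : ℤ) := by exact_mod_cast hp.two_le
  have hred_ne : coeffMap (IsLocalRing.residue A) (jqModC A) ≠ 0 := by
    rw [coeffMap_jqModC]
    exact jqModC_ne_zero_of_nontrivial (kV A)
  obtain ⟨D, hD0, hid0⟩ := (good_J (A := A) (p := p)).identity hr hred_ne
  have hD : ∀ P, D P = P.ord (jBar p) := fun P => by rw [hD0 P, genK_J]
  have hid : ∀ Q, Finsupp.mapDomain r D Q = Q.ord (jRed (kV A) p) := fun Q => by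
    rw [hid0 Q, redk_J]
  have hE : ∀ P, P ∉ ({Pinf, P0} : Finset (PlaceBar p)) → 0 ≤ D P := by
    intro P hP
    rw [Finset.mem_insert, Finset.mem_singleton, not_or] at hP
    rw [hD]
    exact ord_j_nonneg_of_ne hp hc P hP.1 hP.2
  have hsumE : ∀ Q, (∑ P ∈ ({Pinf, P0} : Finset (PlaceBar p)), if r P = Q then D P else 0)
      = (if r Pinf = Q then (-1 : ℤ) else 0) + (if r P0 = Q then -(p : ℤ) else 0) := by
    intro Q
    rw [Finset.sum_pair hne, hD, hD, hc.ord_j_inf, hc.ord_j_zero]
  have F1 : ∀ Q, (if r Pinf = Q then (-1 : ℤ) else 0) + (if r P0 = Q then -(p : ℤ) else 0)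
      ≤ Q.ord (jRed (kV A) p) := by
    intro Q
    have := (fiber_split r D Q _ hE).1
    rwa [hsumE, hid] at this
  have F2 : ∀ Q, Q.ord (jRed (kV A) p)
      ≤ (if r Pinf = Q then (-1 : ℤ) else 0) + (if r P0 = Q then -(p : ℤ) else 0) →
      ∀ P, P ∉ ({Pinf, P0} : Finset (PlaceBar p)) → r P = Q → D P = 0 := by
    intro Q h
    have := (fiber_split r D Q _ hE).2
    rw [hsumE, hid] at this
    exact this h
  obtain ⟨S, hS, hsum⟩ := poles_jRed p ℓ A hp hℓ hℓp hA
  have hcusp : (cuspRed (kV A) p).ord (jRed (kV A) p) = -1 := ord_cuspRed_jRed _ _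
  have hcuspS : cuspRed (kV A) p ∈ S := (hS _).2 (by rw [hcusp]; norm_num)
  -- the two cusps have different reductions
  have h1 : r Pinf ≠ r P0 := by
    intro heq
    have hsub : ∀ Q ∈ S, Q = r Pinf := by
      intro Q hQ
      by_contra hQne
      have h3 := F1 Q
      rw [if_neg (fun h => hQne h.symm), if_neg (fun h => hQne (by rw [← h, heq]))] at h3
      have h4 := (hS Q).1 hQ
      omega
    have hS1 : S = {cuspRed (kV A) p} := by
      rw [Finset.eq_singleton_iff_unique_mem]
      exact ⟨hcuspS, fun Q hQ => by rw [hsub Q hQ, hsub _ hcuspS]⟩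
    rw [hS1, Finset.sum_singleton, hcusp] at hsum
    omega
  have hT : ∀ Q ∈ S, Q = r Pinf ∨ Q = r P0 := by
    intro Q hQ
    by_contra hcon
    rw [not_or] at hcon
    have h3 := F1 Q
    rw [if_neg (Ne.symm hcon.1), if_neg (Ne.symm hcon.2)] at h3
    have h4 := (hS Q).1 hQ
    omega
  have hST : S ⊆ ({r Pinf, r P0} : Finset (Place (kV A) (FRed (kV A) p))) := by
    intro Q hQ
    rw [Finset.mem_insert, Finset.mem_singleton]
    exact hT Q hQ
  have hsum2 : ∑ Q ∈ S, Q.ord (jRed (kV A) p)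
      = (if r Pinf ∈ S then (r Pinf).ord (jRed (kV A) p) else 0)
        + (if r P0 ∈ S then (r P0).ord (jRed (kV A) p) else 0) := by
    rw [← Finset.sum_pair (f := fun Q => if Q ∈ S then Q.ord (jRed (kV A) p) else 0) h1,
      Finset.sum_ite_mem, Finset.inter_eq_right.mpr hST]
  have e1 := F1 (r Pinf)
  rw [if_pos rfl, if_neg (Ne.symm h1)] at e1
  have e2 := F1 (r P0)
  rw [if_neg h1, if_pos rfl] at e2
  have m1 : (r Pinf).ord (jRed (kV A) p) = -1 ∧ (r P0).ord (jRed (kV A) p) = -(p : ℤ) := by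
    rw [hsum2] at hsum
    by_cases a1 : r Pinf ∈ S <;> by_cases a2 : r P0 ∈ S
    · rw [if_pos a1, if_pos a2] at hsum
      exact ⟨by omega, by omega⟩
    · rw [if_pos a1, if_neg a2] at hsum
      exfalso; omega
    · rw [if_neg a1, if_pos a2] at hsum
      exfalso; omega
    · rw [if_neg a1, if_neg a2] at hsum
      exfalso; omega
  have hcuspeq : r Pinf = cuspRed (kV A) p := by
    rcases hT _ hcuspS with h | h
    · exact h.symm
    · exfalso
      rw [h, m1.2] at hcusp
      omega
  refine ⟨h1, hcuspeq, ?_⟩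
  intro P hP
  rw [← hD]
  by_cases hPE : P ∈ ({Pinf, P0} : Finset (PlaceBar p))
  · rw [Finset.mem_insert, Finset.mem_singleton] at hPE
    rcases hPE with rfl | rfl
    · rw [hD, hc.ord_j_inf]; norm_num
    · rw [hD, hc.ord_j_zero]; omega
  · rcases hP with hP | hP
    · have := F2 (r Pinf) (by rw [if_pos rfl, if_neg (Ne.symm h1), m1.1]; norm_num) P hPE hP
      omega
    · have := F2 (r P0) (by rw [if_neg h1, if_pos rfl, m1.2]; norm_num) P hPE hP
      omega

include hp hc hℓ hℓp hA hr in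
/-- No zero of `j_p` reduces to `r P∞`. -/
theorem no_zero_jN (P : PlaceBar p) (hP : r P = r Pinf) : P.ord (jBarN p) ≤ 0 := by
  classical
  obtain ⟨h1, hcuspeq, -⟩ := deg_facts hp hc hℓ hℓp hA hr
  have hne : Pinf ≠ P0 := Fermat.Agent.S15.H30.isCuspPair_ne hp.two_le hc
  have hp2 : (2 : ℤ) ≤ (p : ℤ) := by exact_mod_cast hp.two_le
  have hred_ne : coeffMap (IsLocalRing.residue A) (qExpand A p (jqModC A)) ≠ 0 := by
    rw [coeffMap_qExpand, coeffMap_jqModC]
    intro h
    exact jRedN_ne_zero (kV A) p (Subtype.ext h)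
  obtain ⟨D, hD0, hid0⟩ := (good_Jp (A := A) (p := p)).identity hr hred_ne
  have hD : ∀ P, D P = P.ord (jBarN p) := fun P => by rw [hD0 P, genK_Jp]
  have hid : ∀ Q, Finsupp.mapDomain r D Q = Q.ord (jRedN (kV A) p) := fun Q => by
    rw [hid0 Q, redk_Jp]
  have hE : ∀ P, P ∉ ({Pinf, P0} : Finset (PlaceBar p)) → 0 ≤ D P := by
    intro P hP
    rw [Finset.mem_insert, Finset.mem_singleton, not_or] at hP
    rw [hD]
    exact ord_jN_nonneg_of_ne hp hc P hP.1 hP.2
  have hsumE : (∑ P ∈ ({Pinf, P0} : Finset (PlaceBar p)), if r P = r Pinf then D P else 0)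
      = -(p : ℤ) := by
    rw [Finset.sum_pair hne, if_pos rfl, if_neg (Ne.symm h1), hD, hc.ord_jN_inf, add_zero]
  have hval : Finsupp.mapDomain r D (r Pinf) = -(p : ℤ) := by
    rw [hid, hcuspeq, ord_cuspRed_jRedN]
  have F2 := (fiber_split r D (r Pinf) _ hE).2 (by rw [hsumE, hval])
  rw [← hD]
  by_cases hPE : P ∈ ({Pinf, P0} : Finset (PlaceBar p))
  · rw [Finset.mem_insert, Finset.mem_singleton] at hPE
    rcases hPE with rfl | rfl
    · rw [hD, hc.ord_jN_inf]; omega
    · exact absurd hP (Ne.symm h1)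
  · rw [F2 P hPE hP]

include hp hc hℓ hℓp hA hr in
/-- **B3, strong form.** -/
theorem b3_strong (x : PlaceBar p) (b a : AlgebraicClosure ℚ) (hv : HasValues p x b a)
    (ha : 1 < A.valuation a) :
    (A.valuation b < A.valuation a ^ p → r x = r Pinf) ∧
      (A.valuation a ≤ A.valuation b → r x = r P0) := by
  obtain ⟨h1, -, hzero⟩ := deg_facts hp hc hℓ hℓp hA hr
  have hp2 : (2 : ℤ) ≤ (p : ℤ) := by exact_mod_cast hp.two_le
  have hp0 : (0 : ℤ) < (p : ℤ) := by omega
  have hj0 : jBar p ≠ 0 := jBar_ne_zero_of hc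
  have hjN0 : jBarN p ≠ 0 := jBarN_ne_zero_of hc
  have hvj : pv x (jBar p - algebraMap Kbar (FN p) b) < 1 := pv_lt_one_of_ord_pos x hv.1
  have hvjN : pv x (jBarN p - algebraMap Kbar (FN p) a) < 1 := pv_lt_one_of_ord_pos x hv.2
  have ha0 : a ≠ 0 := by
    rintro rfl
    rw [map_zero] at ha
    exact absurd ha (not_lt.mpr zero_le_one)
  have hva0 : 0 < A.valuation a := lt_trans zero_lt_one ha
  refine ⟨fun hlt => ?_, fun hle => ?_⟩
  · -- `|b| < |a|^p`
    -- `r x` is the reduction of a pole of `j_p`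
    have hx1 : r x = r Pinf ∨ r x = r P0 := by
      obtain ⟨P, hP, hneg⟩ := exists_pole_of_val hr good_Jp (jBarN p) genK_Jp a⁻¹
        (by rw [map_inv₀]; exact inv_lt_one_of_one_lt₀ ha) x
        (pv_scale_lemma x hvjN (inv_mul_cancel₀ ha0))
      rcases poleN_eq_of_isCuspPair hp hc P hneg with rfl | rfl
      · exact Or.inl hP.symm
      · exact Or.inr hP.symm
    rcases hx1 with hx1 | hx1
    · exact hx1
    exfalso
    by_cases hb0 : b = 0
    · -- `x` is a zero of `j`
      have h3 := hv.1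
      rw [hb0, map_zero, sub_zero] at h3
      have := hzero x (Or.inr hx1)
      omega
    · have hcval : A.valuation (b / a ^ p) < 1 := by
        rw [map_div₀, map_pow, div_lt_one₀ (pow_pos hva0 p)]
        exact hlt
      obtain ⟨Z, hZ, hZg⟩ := exists_good_ratio (good_Jp (A := A) (p := p)) good_J
        (isUnit_jqModC A) p
      rw [genK_Jp, genK_J] at hZg
      obtain ⟨P, hP, hneg⟩ := exists_pole_of_val hr hZ _ hZg (b / a ^ p) hcval x
        (pv_zero_lemma x hb0 p hvjN hvj (div_mul_cancel₀ b (pow_ne_zero p ha0)))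
      rw [P.ord_mul (pow_ne_zero p hjN0) (inv_ne_zero hj0), ord_pow_nat, Place.ord_inv] at hneg
      have hPinf : P ≠ Pinf := by
        rintro rfl
        exact h1 (hP.trans hx1)
      have hP0 : P ≠ P0 := by
        rintro rfl
        rw [hc.ord_jN_zero, hc.ord_j_zero] at hneg
        omega
      have h5 := ord_j_nonneg_of_ne hp hc P hPinf hP0
      have h6 := ord_jN_nonneg_of_ne hp hc P hPinf hP0
      have h7 := hzero P (Or.inr (hP.trans hx1))
      have h8 : 0 ≤ (p : ℤ) * P.ord (jBarN p) := mul_nonneg hp0.le h6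
      omega
  · -- `|a| ≤ |b|`
    have hb1 : 1 < A.valuation b := lt_of_lt_of_le ha hle
    have hb0 : b ≠ 0 := by
      rintro rfl
      rw [map_zero] at hb1
      exact absurd hb1 (not_lt.mpr zero_le_one)
    have hvb0 : 0 < A.valuation b := lt_trans zero_lt_one hb1
    have hx1 : r x = r Pinf ∨ r x = r P0 := by
      obtain ⟨P, hP, hneg⟩ := exists_pole_of_val hr good_J (jBar p) genK_J b⁻¹
        (by rw [map_inv₀]; exact inv_lt_one_of_one_lt₀ hb1) x
        (pv_scale_lemma x hvj (inv_mul_cancel₀ hb0))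
      rcases Fermat.Agent.S15.H30.pole_eq_of_isCuspPair hp hc P hneg with rfl | rfl
      · exact Or.inl hP.symm
      · exact Or.inr hP.symm
    rcases hx1 with hx1 | hx1
    swap
    · exact hx1
    exfalso
    have hcval : A.valuation (a / b ^ p) < 1 := by
      rw [map_div₀, map_pow, div_lt_one₀ (pow_pos hvb0 p)]
      calc A.valuation a ≤ A.valuation b := hle
        _ = A.valuation b ^ 1 := (pow_one _).symm
        _ < A.valuation b ^ p := pow_lt_pow_right₀ hb1 hp.one_lt
    obtain ⟨Z, hZ, hZg⟩ := exists_good_ratio (good_J (A := A) (p := p)) good_Jp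
      ((isUnit_jqModC A).map (qExpand A p)) p
    rw [genK_Jp, genK_J] at hZg
    obtain ⟨P, hP, hneg⟩ := exists_pole_of_val hr hZ _ hZg (a / b ^ p) hcval x
      (pv_zero_lemma x ha0 p hvj hvjN (div_mul_cancel₀ a (pow_ne_zero p hb0)))
    rw [P.ord_mul (pow_ne_zero p hj0) (inv_ne_zero hjN0), ord_pow_nat, Place.ord_inv] at hneg
    have hP0 : P ≠ P0 := by
      rintro rfl
      exact h1 (hP.trans hx1).symm
    have hPinf : P ≠ Pinf := by
      rintro rfl
      rw [hc.ord_jN_inf, hc.ord_j_inf] at hneg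
      omega
    have h5 := ord_j_nonneg_of_ne hp hc P hPinf hP0
    have h7 := no_zero_jN hp hc hℓ hℓp hA hr P (hP.trans hx1)
    have h8 : 0 ≤ (p : ℤ) * P.ord (jBar p) := mul_nonneg hp0.le h5
    omega

end Cusp

end Fermat.Agent.S15.B3

namespace Fermat.Agent.S15.B3

/-- **B3**: reduction of a place from the absolute values of its `j`-values. -/
theorem stmt_B3 : Stmt_B3 := by
  intro p _ hp Pinf P0 hc x b a hv ℓ hℓ hℓp A hA h ha
  have hr := isPlaceReductionModL_placeReductionModL h
  have hs := b3_strong hp hc hℓ hℓp hA hr x b a hv ha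
  have hva0 : 0 < A.valuation a := lt_trans zero_lt_one ha
  refine ⟨fun hb => hs.1 ?_, fun hb => hs.2 ?_⟩
  · -- `|b|^p = |a|`
    have hb1 : 1 < A.valuation b := by
      by_contra hcon
      rw [not_lt] at hcon
      have : A.valuation b ^ p ≤ 1 := pow_le_one₀ zero_le hcon
      rw [hb] at this
      exact absurd ha (not_lt.mpr this)
    calc A.valuation b = A.valuation b ^ 1 := (pow_one _).symm
      _ < A.valuation b ^ p := pow_lt_pow_right₀ hb1 hp.one_lt
      _ = A.valuation a := hb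
      _ = A.valuation a ^ 1 := (pow_one _).symm
      _ < A.valuation a ^ p := pow_lt_pow_right₀ ha hp.one_lt
  · -- `|b| = |a|^p`
    rw [hb]
    calc A.valuation a = A.valuation a ^ 1 := (pow_one _).symm
      _ ≤ A.valuation a ^ p := pow_le_pow_right₀ ha.le hp.one_lt.le

end Fermat.Agent.S15.B3
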